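import Mathlib
import Fermat.Prelude.Def_AlgebraicCurve_DivisorClassGroup
import Fermat.Prelude.Def_AlgebraicCurve_IsCurveOver
import Fermat.Prelude.Def_AlgebraicCurve_Repartitions
import Fermat.Agent.S17.R.H1
import Fermat.Agent.S17.D.DivisibleOfGeneric
import Fermat.Agent.S17.D.Generic

/-!
# Program PJ (statement S27): the contract

`K` is an algebraically closed field of characteristic `0`, `F / K` the function field of a
curve, `g = gR K F` Riemann's constant (`= genusFF K F`, strand R of program MW), `l` a prime.
The frozen statement is `Nat.card (Pic0.torsion K F (l ^ k)) = l ^ (2 * genusFF K F * k)`.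

Everything in this file is typed on `F` only, in landed vocabulary (`Place`, `Divisor`,
`riemannRochSpace`, `Divisor.principal`, `Pic0`, `S17.R.gR`).  No configuration field occurs.

## The exit

* `HTr K F` (strand M): `Algebra.trdeg K F = 1`.
* `UpperBound K F l` (strand G): one constant `C` with `card T ≤ C * (l ^ j) ^ (2 g)` for every
  `j` and every FINITE set `T` of classes killed by `l ^ j` (this contains the finiteness).
* `LowerBound K F l` (strand G): one constant `C` such that for every `j` some finite set `T` of
  classes killed by `l ^ j` has `(l ^ j) ^ (2 g) ≤ C * card T`.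
* `ExitAlg K F l` (strand F, Mathlib-only group theory): divisibility by `l` and the two bounds
  give `Nat.card (Pic0.torsion K F (l ^ k)) = l ^ (2 g k)` for every `k`.
* `result_of_contract`: the frozen statement from these four (divisibility and `gR = genusFF`
  are on main: strand D and strand R of program MW).

## The chain vocabulary (strand G; the constants may depend on `K`, `F`, never on `n`)

* `Sol K F n k c`: the K-solutions of type `(k, g - k)` in the class of `c` at level `n`:
  pairs `(G, Fs)` of disjoint finite sets of places, `card G = k`, `card G + card Fs = g`, the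
  `g` points non-special (`l(sum G + sum Fs) = 1`: this is the invariant (I*)), and
  `sum G + n * sum Fs - c` principal.
* `StepUp K F k`, `StepDown K F k`: the two one-sided steps of the chain between the types
  `(k, g - k)` and `(k + 1, g - k - 1)`, factor `n ^ 2` up to a constant.
* the ends: `TopUnique`, `TopExists`, `BottomLower`, and the start of the upper chain in two
  interchangeable forms `UpperStart0` (general position at type `(0, g)`) and `UpperStart1`
  (the Kummer start on one configuration of type `(1, g)`, landing in type `(1, g - 1)`), with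
  `GenusZero` for the genus-zero case of the second form.
-/

set_option autoImplicit false

open AlgebraicCurve

namespace Fermat.Agent.S27

section Defs

variable (K F : Type*) [Field K] [Field F] [Algebra K F]

/-- **Strand M**: the function field has transcendence degree one. -/
def HTr : Prop := Algebra.trdeg K F = 1

/-- **Strand G, upper half** (finite-set form; it contains the finiteness of the torsion). -/
def UpperBound (l : ℕ) : Prop :=
  ∃ C : ℕ, ∀ j : ℕ, ∀ T : Finset (Pic0 K F), (∀ x ∈ T, l ^ j • x = 0) →
    T.card ≤ C * (l ^ j) ^ (2 * S17.R.gR K F)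

/-- **Strand G, lower half** (finite-set form). -/
def LowerBound (l : ℕ) : Prop :=
  ∃ C : ℕ, ∀ j : ℕ, ∃ T : Finset (Pic0 K F), (∀ x ∈ T, l ^ j • x = 0) ∧
    (l ^ j) ^ (2 * S17.R.gR K F) ≤ C * T.card

/-- **Strand F**: the exit arithmetic (group theory only). -/
def ExitAlg (l : ℕ) : Prop :=
  (∀ x : Pic0 K F, ∃ y : Pic0 K F, l • y = x) → UpperBound K F l → LowerBound K F l →
    ∀ k : ℕ, Nat.card (Pic0.torsion K F (l ^ k)) = l ^ (2 * S17.R.gR K F * k)

/-- The K-solutions of type `(k, g - k)` in the class of `c` at level `n`: pairs `(G, Fs)` of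
disjoint finite sets of places with `card G = k`, `card G + card Fs = g`, the `g` points
non-special, and `sum G + n * sum Fs - c` principal. -/
def Sol (n k : ℕ) (c : Divisor K F) : Set (Finset (Place K F) × Finset (Place K F)) :=
  {p | Disjoint p.1 p.2 ∧ p.1.card = k ∧ p.1.card + p.2.card = S17.R.gR K F ∧
    Module.finrank K ↥(riemannRochSpace (∑ v ∈ p.1, Finsupp.single v (1 : ℤ) +
      ∑ v ∈ p.2, Finsupp.single v (1 : ℤ))) = 1 ∧
    (∑ v ∈ p.1, Finsupp.single v (1 : ℤ) + (n : ℤ) • ∑ v ∈ p.2, Finsupp.single v (1 : ℤ)) - c ∈
      Divisor.principal (K := K) (F := F)}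

/-- **The step up** `(k, g - k) → (k + 1, g - k - 1)` of the upper chain.  It is a theorem for
`k < g` only (for `k ≥ g` the target type is empty): the leaf is `k < gR K F → StepUp K F k`. -/
def StepUp (k : ℕ) : Prop :=
  ∃ C : ℕ, ∀ n : ℕ, 2 ≤ n → ∀ (c : Divisor K F)
    (S : Finset (Finset (Place K F) × Finset (Place K F))), (↑S : Set _) ⊆ Sol K F n k c →
    ∃ (c' : Divisor K F) (S' : Finset (Finset (Place K F) × Finset (Place K F))),
      (↑S' : Set _) ⊆ Sol K F n (k + 1) c' ∧ S.card ≤ C * n ^ 2 * S'.card

/-- **The step down** `(k + 1, g - k - 1) → (k, g - k)` of the lower chain (used for `k < g`;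
for `k ≥ g` the source type is empty and the statement is trivial). -/
def StepDown (k : ℕ) : Prop :=
  ∃ C : ℕ, ∀ n : ℕ, 2 ≤ n → ∀ (c' : Divisor K F)
    (S' : Finset (Finset (Place K F) × Finset (Place K F))),
    (↑S' : Set _) ⊆ Sol K F n (k + 1) c' →
    ∃ (c : Divisor K F) (S : Finset (Finset (Place K F) × Finset (Place K F))),
      (↑S : Set _) ⊆ Sol K F n k c ∧ n ^ 2 * S'.card ≤ C * S.card

/-- **Top end**: a solution of type `(g, 0)` is unique in its class. -/
def TopUnique : Prop :=
  ∀ (n : ℕ) (c : Divisor K F) (p q : Finset (Place K F) × Finset (Place K F)),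
    p ∈ Sol K F n (S17.R.gR K F) c → q ∈ Sol K F n (S17.R.gR K F) c → p = q

/-- **Top start** of the lower chain: there is a solution of type `(g, 0)`. -/
def TopExists : Prop :=
  ∀ n : ℕ, ∃ (c : Divisor K F) (p : Finset (Place K F) × Finset (Place K F)),
    p ∈ Sol K F n (S17.R.gR K F) c

/-- **Bottom end** of the lower chain: solutions of type `(0, g)` in one class give as many
classes killed by `n`. -/
def BottomLower : Prop :=
  ∀ (n : ℕ) (c : Divisor K F) (S : Finset (Finset (Place K F) × Finset (Place K F))),
    (↑S : Set _) ⊆ Sol K F n 0 c →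
    ∃ T : Finset (Pic0 K F), (∀ x ∈ T, n • x = 0) ∧ S.card ≤ T.card

/-- **Start of the upper chain, form 0** (general position): finitely many classes killed by
`n` are represented, up to a constant, by solutions of type `(0, g)` in one class. -/
def UpperStart0 : Prop :=
  ∃ C : ℕ, ∀ n : ℕ, 2 ≤ n → ∀ T : Finset (Pic0 K F), (∀ x ∈ T, n • x = 0) →
    ∃ (c : Divisor K F) (S : Finset (Finset (Place K F) × Finset (Place K F))),
      (↑S : Set _) ⊆ Sol K F n 0 c ∧ T.card ≤ C * S.card

/-- **Start of the upper chain, form 1** (the Kummer start on one configuration of type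
`(1, g)`), for positive genus: it lands in type `(1, g - 1)` with the factor `n ^ 2`. -/
def UpperStart1 : Prop :=
  0 < S17.R.gR K F → ∃ C : ℕ, ∀ n : ℕ, 2 ≤ n → ∀ T : Finset (Pic0 K F), (∀ x ∈ T, n • x = 0) →
    ∃ (c : Divisor K F) (S : Finset (Finset (Place K F) × Finset (Place K F))),
      (↑S : Set _) ⊆ Sol K F n 1 c ∧ T.card ≤ C * n ^ 2 * S.card

/-- **Genus zero**: the class group of degree zero is trivial. -/
def GenusZero : Prop :=
  S17.R.gR K F = 0 → ∀ x : Pic0 K F, x = 0

end Defs

/-- **The contract of program PJ**: the frozen statement S27 from the exits of the strands. -/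
theorem result_of_contract (K F : Type*) [Field K] [Field F] [Algebra K F] [IsAlgClosed K]
    [CharZero K] [IsCurveOver K F] [Algebra.EssFiniteType K F] (ℓ : ℕ) [Fact ℓ.Prime] (k : ℕ)
    (htr : HTr K F) (hU : UpperBound K F ℓ) (hL : LowerBound K F ℓ) (hE : ExitAlg K F ℓ) :
    Nat.card (Pic0.torsion K F (ℓ ^ k)) = ℓ ^ (2 * genusFF K F * k) := by
  have hdiv : ∀ x : Pic0 K F, ∃ y : Pic0 K F, ℓ • y = x := fun x =>
    S17.D.pic0_divisible_of_generic htr ℓ (Fact.out : ℓ.Prime).pos
      (fun Q₀ E₀ hQ hE hdim =>
        S17.D.exists_finset_forall_principal htr ℓ (Fact.out : ℓ.Prime).pos Q₀ E₀ hQ hE hdim) x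
  rw [← (S17.R.gR_eq_genusFF htr).1]
  exact hE hdiv hU hL k

end Fermat.Agent.S27
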