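import Mathlib

/-!
# Program PJ (S27), strand G, leaf K3: Kummer independence by a trace argument

(Text of helper176, compiled and landed by helper142, owner of the Kummer start.)

`L ⊆ E` a finite extension of fields, `ζ ∈ L` a primitive `n`-th root of unity.

* `minpoly_nextCoeff_eq_zero` : if `δ ^ n ∈ L` and `δ ∉ L`, the minimal polynomial of `δ` over
  `L` has no term of degree `deg - 1` (its roots in `E` are `ζ ^ k * δ`, so the sum of the roots
  is `s * δ` with `s ∈ L`, and it lies in `L`).
* `trace_eq_zero_of_pow_mem` : hence `Tr_{E/L} δ = 0`.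
* `linearIndependent_of_div_notMem` : in characteristic `0`, non-zero elements `h i` of `E` with
  `h i ^ n ∈ L` and pairwise ratios outside `L` are linearly independent over `L`
  (divide a relation by `h j` and take the trace).
* `card_le_finrank`, `card_finset_le_finrank` : their number is at most `[E : L]`.

No Galois group is used.  Consumer: the start of the upper chain (the `n`-th roots of the
functions of the `n`-torsion classes inside the configuration field are independent over the
image of the parameter embedding, hence `N(n) ≤ [M : ρ₀ F]`).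
-/

set_option autoImplicit false

open Polynomial

namespace Fermat.Agent.S27.KummerIndep

variable {L E : Type*} [Field L] [Field E] [Algebra L E]

/-- If `δ ^ n ∈ L`, `δ ∉ L` and `L` contains a primitive `n`-th root of unity, then the minimal
polynomial of `δ` over `L` has vanishing second-highest coefficient. -/
theorem minpoly_nextCoeff_eq_zero {n : ℕ} (hn : 0 < n) {ζ : L} (hζ : IsPrimitiveRoot ζ n) {δ : E}
    (hpow : δ ^ n ∈ (algebraMap L E).range) (hδ : δ ∉ (algebraMap L E).range) :
    (minpoly L δ).nextCoeff = 0 := by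
  obtain ⟨a, ha⟩ := hpow
  have hroot : aeval δ (X ^ n - C a : L[X]) = 0 := by
    rw [map_sub, map_pow, aeval_X, aeval_C, ha, sub_self]
  have hint : IsIntegral L δ := ⟨X ^ n - C a, monic_X_pow_sub_C a hn.ne', hroot⟩
  have hdvd : minpoly L δ ∣ X ^ n - C a := minpoly.dvd L δ hroot
  have hmonic : (minpoly L δ).Monic := minpoly.monic hint
  have hinj : Function.Injective (algebraMap L E) := (algebraMap L E).injective
  have hζ' : IsPrimitiveRoot (algebraMap L E ζ) n := hζ.map_of_injective hinj
  have hsplit : (X ^ n - C (δ ^ n) : E[X]).Splits :=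
    X_pow_sub_C_splits_of_isPrimitiveRoot hζ' rfl
  have hne : (X ^ n - C (δ ^ n) : E[X]) ≠ 0 := (monic_X_pow_sub_C _ hn.ne').ne_zero
  have hqdvd : (minpoly L δ).map (algebraMap L E) ∣ X ^ n - C (δ ^ n) := by
    have h1 := Polynomial.map_dvd (algebraMap L E) hdvd
    rwa [Polynomial.map_sub, Polynomial.map_pow, Polynomial.map_X, Polynomial.map_C, ha] at h1
  have hqsplit : ((minpoly L δ).map (algebraMap L E)).Splits := Splits.of_dvd hsplit hne hqdvd
  have hnc : ((minpoly L δ).map (algebraMap L E)).nextCoeff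
      = -((minpoly L δ).map (algebraMap L E)).roots.sum :=
    hqsplit.nextCoeff_eq_neg_sum_roots_of_monic (hmonic.map _)
  have hnc' : ((minpoly L δ).map (algebraMap L E)).nextCoeff
      = algebraMap L E (minpoly L δ).nextCoeff := nextCoeff_map hinj _
  have hroots : ∀ r ∈ ((minpoly L δ).map (algebraMap L E)).roots,
      r ∈ Submodule.span L ({δ} : Set E) := by
    intro r hr
    have hr' : r ∈ (X ^ n - C (δ ^ n) : E[X]).roots :=
      Multiset.mem_of_le (Polynomial.roots.le_of_dvd hne hqdvd) hr
    have hr'' : r ∈ nthRoots n (δ ^ n) := hr'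
    rw [hζ'.nthRoots_eq rfl, Multiset.mem_map] at hr''
    obtain ⟨i, -, rfl⟩ := hr''
    rw [Submodule.mem_span_singleton]
    exact ⟨ζ ^ i, by rw [Algebra.smul_def, map_pow]⟩
  have hsum : ((minpoly L δ).map (algebraMap L E)).roots.sum ∈ Submodule.span L ({δ} : Set E) :=
    multiset_sum_mem _ hroots
  obtain ⟨s, hs⟩ := Submodule.mem_span_singleton.1 hsum
  have h1 : algebraMap L E (minpoly L δ).nextCoeff = -(algebraMap L E s * δ) := by
    rw [← hnc', hnc, ← hs, Algebra.smul_def]
  by_contra hne0
  have hs0 : s ≠ 0 := by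
    rintro rfl
    rw [map_zero, zero_mul, neg_zero] at h1
    exact hne0 (hinj (h1.trans (map_zero _).symm))
  have hs0' : algebraMap L E s ≠ 0 := fun h => hs0 (hinj (h.trans (map_zero _).symm))
  apply hδ
  refine ⟨-(minpoly L δ).nextCoeff / s, ?_⟩
  rw [map_div₀, map_neg, h1, neg_neg, mul_comm, mul_div_assoc, div_self hs0', mul_one]

/-- **Kummer trace lemma.**  If `δ ^ n ∈ L`, `δ ∉ L` and `L` contains a primitive `n`-th root
of unity, then `Tr_{E/L} δ = 0`. -/
theorem trace_eq_zero_of_pow_mem [FiniteDimensional L E] {n : ℕ} (hn : 0 < n) {ζ : L}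
    (hζ : IsPrimitiveRoot ζ n) {δ : E} (hpow : δ ^ n ∈ (algebraMap L E).range)
    (hδ : δ ∉ (algebraMap L E).range) : Algebra.trace L E δ = 0 := by
  rw [trace_eq_finrank_mul_minpoly_nextCoeff, minpoly_nextCoeff_eq_zero hn hζ hpow hδ, neg_zero,
    mul_zero]

/-- **Kummer independence.**  In characteristic `0`, non-zero `h i ∈ E` with `h i ^ n ∈ L` and
pairwise ratios outside `L` are linearly independent over `L`. -/
theorem linearIndependent_of_div_notMem [FiniteDimensional L E] [CharZero L] {n : ℕ}
    (hn : 0 < n) {ζ : L} (hζ : IsPrimitiveRoot ζ n) {ι : Type*} (h : ι → E)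
    (h0 : ∀ i, h i ≠ 0) (hpow : ∀ i, h i ^ n ∈ (algebraMap L E).range)
    (hne : ∀ i j, i ≠ j → h i / h j ∉ (algebraMap L E).range) : LinearIndependent L h := by
  classical
  rw [linearIndependent_iff']
  intro s a hsum j hj
  have h1 : ∑ i ∈ s, a i • (h i / h j) = 0 := by
    have h2 : (∑ i ∈ s, a i • h i) * (h j)⁻¹ = 0 := by rw [hsum, zero_mul]
    rw [Finset.sum_mul] at h2
    rw [← h2]
    refine Finset.sum_congr rfl fun i _ => ?_
    rw [div_eq_mul_inv, smul_mul_assoc]
  have h3 : ∀ i ∈ s, Algebra.trace L E (a i • (h i / h j))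
      = if i = j then a j * (Module.finrank L E : L) else 0 := by
    intro i _
    rw [map_smul, smul_eq_mul]
    split_ifs with hij
    · subst hij
      rw [div_self (h0 i), ← (algebraMap L E).map_one, Algebra.trace_algebraMap, nsmul_eq_mul,
        mul_one]
    · have hp : (h i / h j) ^ n ∈ (algebraMap L E).range := by
        obtain ⟨ai, hai⟩ := hpow i
        obtain ⟨aj, haj⟩ := hpow j
        exact ⟨ai / aj, by rw [map_div₀, hai, haj, div_pow]⟩
      rw [trace_eq_zero_of_pow_mem hn hζ hp (hne i j hij), mul_zero]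
  have h4 := congrArg (Algebra.trace L E) h1
  rw [map_sum, map_zero, Finset.sum_congr rfl h3, Finset.sum_ite_eq' s j, if_pos hj] at h4
  have hfr : (Module.finrank L E : L) ≠ 0 :=
    Nat.cast_ne_zero.2 (Module.finrank_pos (R := L) (M := E)).ne'
  exact (mul_eq_zero.1 h4).resolve_right hfr

/-- The number of such elements is at most `[E : L]`. -/
theorem card_le_finrank [FiniteDimensional L E] [CharZero L] {n : ℕ} (hn : 0 < n) {ζ : L}
    (hζ : IsPrimitiveRoot ζ n) {ι : Type*} [Fintype ι] (h : ι → E) (h0 : ∀ i, h i ≠ 0)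
    (hpow : ∀ i, h i ^ n ∈ (algebraMap L E).range)
    (hne : ∀ i j, i ≠ j → h i / h j ∉ (algebraMap L E).range) :
    Fintype.card ι ≤ Module.finrank L E :=
  (linearIndependent_of_div_notMem hn hζ h h0 hpow hne).fintype_card_le_finrank

/-- Finset form: a finite set `T` of indices with roots `h x` (`x ∈ T`) as above has at most
`[E : L]` elements. -/
theorem card_finset_le_finrank [FiniteDimensional L E] [CharZero L] {n : ℕ} (hn : 0 < n) {ζ : L}
    (hζ : IsPrimitiveRoot ζ n) {X : Type*} (T : Finset X) (h : X → E) (h0 : ∀ x ∈ T, h x ≠ 0)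
    (hpow : ∀ x ∈ T, h x ^ n ∈ (algebraMap L E).range)
    (hne : ∀ x ∈ T, ∀ y ∈ T, x ≠ y → h x / h y ∉ (algebraMap L E).range) :
    T.card ≤ Module.finrank L E := by
  have hc := card_le_finrank hn hζ (fun x : ↥T => h x.1) (fun x => h0 x.1 x.2)
    (fun x => hpow x.1 x.2)
    (fun x y hxy => hne x.1 x.2 y.1 y.2 (fun e => hxy (Subtype.ext e)))
  rwa [Fintype.card_coe] at hc

end Fermat.Agent.S27.KummerIndep
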