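import Mathlib
import Fermat.Agent.S24.FF.Principal
import Fermat.Agent.Lib.FFNorm.Along
import Fermat.Agent.S17.R.LSpace
import Fermat.Agent.S17.R.Move
import Fermat.Agent.S17.HB.Deg.Exit
import Fermat.Agent.S27.L.Defs
import Fermat.Agent.S27.L.Value
import Fermat.Agent.S27.KummerIndep

/-!
# Program PJ (statement S27), strand G: the Kummer start of the upper chain

`F / K` is the function field of the curve, `M / K` the function field of a profile
configuration `d : L.Data htr M ι μ m B δ` (strand L): embeddings `ρ z : F →ₐ[K] M` with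
multiplicities `μ z`, and the generic function `∑ cM j • v j`, `v j ∈ L(B)`, vanishing to order
`μ z` at the point `ρ z`.  For a place `Q` of `F` off the support of `B` let
`Φ Q = ∑ v j (Q) cM j ∈ M` be the value of the generic function at `Q` (`phi d Q`).

* `ord_prod_map` : (K1, Weil reciprocity in divisor form) for `f ∈ F` non-zero whose divisor is
  disjoint from `B`, the functions `∏ z, ρ z f ^ μ z` and `∏_Q Φ Q ^ (div f) Q` of `M` have the
  same order at every place of `M` (from DV, `L.ord_value`: the normalising exponent cancels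
  because `deg (div f) = 0`);
* `exists_const` : hence they differ by a non-zero constant;
* `exists_root` : if `μ z₀ = 1`, `n ∣ μ z` for `z ≠ z₀` and `div f = n D'`, then `ρ z₀ f` is an
  `n`-th power in `M`;
* `card_le_finrankAlong` : (K2 + K3) hence every finite set `T` of classes of `Pic0 K F` killed
  by `n` has at most `[M : ρ z₀ F]` elements (the `n`-th roots `h t` of `ρ z₀ (f t)` are linearly
  independent over `ρ z₀ F`, `KummerIndep`);
* `card_le_finrankAlong_sum` : the same for the type `(1, e2)` in the vocabulary of the exit of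
  strand L (`ι = Fin 1 ⊕ Fin e2`, `μ = Sum.elim 1 n`).

This is the start of the upper chain and, at the same time, the finiteness of the `n`-torsion.
-/

set_option autoImplicit false
set_option linter.style.haveILetI false

open AlgebraicCurve

namespace Fermat.Agent.S27.KummerStart

open Fermat.Agent.S17 Fermat.Agent.S17.HB

variable {K F M : Type*} [Field K] [Field F] [Algebra K F] [Field M] [Algebra K M]
variable [IsAlgClosed K] [CharZero K] [Algebra.EssFiniteType K F] [Algebra.EssFiniteType K M]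

omit [Algebra.EssFiniteType K M] in
/-- The value at the place `Q` of `F` of the generic function of a profile configuration. -/
noncomputable def phi {htr : Algebra.trdeg K F = 1} {ι : Type*} [Fintype ι] {μ : ι → ℕ} {m : ℕ}
    {B : Divisor K F} {δ : Derivation K F F} (d : L.Data htr M ι μ m B δ) (Q : Place K F) : M :=
  ∑ j, algebraMap K M (H.Glob.evalAt Q (d.v j)) * d.cM j

/-- The sum of the coefficients of a principal divisor over its support is zero. -/
theorem sum_support_divOf (htr : Algebra.trdeg K F = 1) (f : F) :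
    ∑ Q ∈ (R.divOf K f).support, R.divOf K f Q = 0 := by
  have h := R.degree_divOf htr f
  rw [Fermat.Agent.S24.FF.degree_eq_finsum htr,
    finsum_eq_sum_of_support_subset (s := (R.divOf K f).support)] at h
  · exact h
  · intro v hv
    simpa [Function.mem_support] using hv

open Classical in
/-- **K1** (Weil reciprocity in divisor form): the two products have the same order at every
place of `M`. -/
theorem ord_prod_map (htr : Algebra.trdeg K F = 1) (htrM : Algebra.trdeg K M = 1)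
    {ι : Type*} [Fintype ι] {μ : ι → ℕ} {m : ℕ} {B : Divisor K F} {δ : Derivation K F F}
    (d : L.Data htr M ι μ m B δ) (hμ : ∀ z, 0 < μ z) {f : F} (hf : f ≠ 0)
    (hB : ∀ Q : Place K F, R.divOf K f Q ≠ 0 → B Q = 0) (c : Place K M) :
    (∏ z, d.ρ z f ^ μ z) ≠ 0 ∧
    (∏ Q ∈ (R.divOf K f).support, phi d Q ^ (R.divOf K f Q)) ≠ 0 ∧
    c.ord (∏ z, d.ρ z f ^ μ z) =
      c.ord (∏ Q ∈ (R.divOf K f).support, phi d Q ^ (R.divOf K f Q)) := by
  obtain ⟨ϖ, hϖ, e, he, he0⟩ := Deg.Exit.exists_exponent d.cM 0 d.cM_zero c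
  have hρf : ∀ z, d.ρ z f ^ μ z ≠ 0 := fun z => pow_ne_zero _ ((map_ne_zero (d.ρ z)).mpr hf)
  have hDV : ∀ Q ∈ (R.divOf K f).support, phi d Q ≠ 0 ∧
      c.ord (phi d Q) = -(e : ℤ) + ∑ z : ι,
        (if L.cen htr htrM (d.ρ z) c = Q then (μ z : ℤ) * (Loc2.ram (d.ρ z) c : ℤ) else 0) :=
    fun Q hQ => L.ord_value htr htrM d hμ Q (hB Q (Finsupp.mem_support_iff.mp hQ)) c ϖ hϖ e he he0
  have hφ : ∀ Q ∈ (R.divOf K f).support, phi d Q ^ (R.divOf K f Q) ≠ 0 :=
    fun Q hQ => zpow_ne_zero _ (hDV Q hQ).1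
  refine ⟨Finset.prod_ne_zero_iff.mpr fun z _ => hρf z, Finset.prod_ne_zero_iff.mpr hφ, ?_⟩
  rw [Deg.Exit.ord_prod _ _ (fun z _ => hρf z) c, Deg.Exit.ord_prod _ _ hφ c]
  have h1 : ∀ z, c.ord (d.ρ z f ^ μ z) =
      (μ z : ℤ) * ((Loc2.ram (d.ρ z) c : ℤ) * R.divOf K f (L.cen htr htrM (d.ρ z) c)) := by
    intro z
    rw [Deg.Exit.ord_npow, L.ord_map htr htrM (d.ρ z) c f, R.divOf_apply htr]
  have h2 : ∀ Q ∈ (R.divOf K f).support, c.ord (phi d Q ^ (R.divOf K f Q)) =
      R.divOf K f Q * -(e : ℤ) + ∑ z : ι, (if L.cen htr htrM (d.ρ z) c = Q then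
        (μ z : ℤ) * ((Loc2.ram (d.ρ z) c : ℤ) * R.divOf K f Q) else 0) := by
    intro Q hQ
    rw [Place.ord_zpow, (hDV Q hQ).2, mul_add, Finset.mul_sum]
    congr 1
    refine Finset.sum_congr rfl fun z _ => ?_
    split_ifs
    · ring
    · rw [mul_zero]
  rw [Finset.sum_congr rfl (fun z _ => h1 z), Finset.sum_congr rfl h2, Finset.sum_add_distrib,
    ← Finset.sum_mul, sum_support_divOf htr f, zero_mul, zero_add, Finset.sum_comm]
  refine Finset.sum_congr rfl fun z _ => ?_
  by_cases hz : L.cen htr htrM (d.ρ z) c ∈ (R.divOf K f).support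
  · rw [Finset.sum_eq_single_of_mem _ hz (fun Q _ hQ => if_neg (Ne.symm hQ)), if_pos rfl]
  · rw [Finset.sum_eq_zero (fun Q hQ => if_neg (fun h => hz (by rw [h]; exact hQ))),
      Finsupp.notMem_support_iff.mp hz, mul_zero, mul_zero]

/-- **K1**: the two products differ by a non-zero constant. -/
theorem exists_const (htr : Algebra.trdeg K F = 1) (htrM : Algebra.trdeg K M = 1)
    {ι : Type*} [Fintype ι] {μ : ι → ℕ} {m : ℕ} {B : Divisor K F} {δ : Derivation K F F}
    (d : L.Data htr M ι μ m B δ) (hμ : ∀ z, 0 < μ z) {f : F} (hf : f ≠ 0)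
    (hB : ∀ Q : Place K F, R.divOf K f Q ≠ 0 → B Q = 0) :
    ∃ κ : K, κ ≠ 0 ∧ ∏ z, d.ρ z f ^ μ z =
      algebraMap K M κ * ∏ Q ∈ (R.divOf K f).support, phi d Q ^ (R.divOf K f Q) := by
  have hall := fun c : Place K M => ord_prod_map htr htrM d hμ hf hB c
  obtain ⟨c₀⟩ := R.nonempty_place htrM
  obtain ⟨hX0, hY0, -⟩ := hall c₀
  have hq0 : (∏ z, d.ρ z f ^ μ z) *
      (∏ Q ∈ (R.divOf K f).support, phi d Q ^ (R.divOf K f Q))⁻¹ ≠ 0 :=
    mul_ne_zero hX0 (inv_ne_zero hY0)
  have hmem : (∏ z, d.ρ z f ^ μ z) *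
      (∏ Q ∈ (R.divOf K f).support, phi d Q ^ (R.divOf K f Q))⁻¹ ∈
        riemannRochSpace (0 : Divisor K M) := by
    rw [R.mem_L_of_ne_zero hq0]
    intro v
    rw [v.ord_mul hX0 (inv_ne_zero hY0), v.ord_inv, (hall v).2.2]
    simp
  obtain ⟨κ, hκ⟩ := (R.mem_L_zero_iff htrM).mp hmem
  refine ⟨κ, ?_, ?_⟩
  · rintro rfl
    rw [map_zero] at hκ
    exact hq0 hκ.symm
  · rw [hκ, mul_assoc, inv_mul_cancel₀ hY0, mul_one]

/-- **K1, root form**: if `μ z₀ = 1`, `n ∣ μ z` for the other points and `div f = n D'` with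
`D'` disjoint from `B`, then `ρ z₀ f` is an `n`-th power in `M`. -/
theorem exists_root (htr : Algebra.trdeg K F = 1) (htrM : Algebra.trdeg K M = 1)
    {ι : Type*} [Fintype ι] {μ : ι → ℕ} {m : ℕ} {B : Divisor K F} {δ : Derivation K F F}
    (d : L.Data htr M ι μ m B δ) (hμ : ∀ z, 0 < μ z) {n : ℕ} (hn : 0 < n) (z₀ : ι)
    (hz₀ : μ z₀ = 1) (hdvd : ∀ z, z ≠ z₀ → n ∣ μ z) {f : F} (hf : f ≠ 0) (D' : Divisor K F)
    (hD : R.divOf K f = (n : ℤ) • D') (hB : ∀ Q : Place K F, D' Q ≠ 0 → B Q = 0) :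
    ∃ h : M, h ^ n = d.ρ z₀ f := by
  classical
  have hB' : ∀ Q : Place K F, R.divOf K f Q ≠ 0 → B Q = 0 := by
    intro Q hQ
    refine hB Q fun h0 => hQ ?_
    rw [hD, Finsupp.smul_apply, h0, smul_zero]
  obtain ⟨κ, hκ0, hκ⟩ := exists_const htr htrM d hμ hf hB'
  obtain ⟨lam, hlam⟩ := IsAlgClosed.exists_pow_nat_eq κ hn
  have hρ0 : ∀ z, d.ρ z f ≠ 0 := fun z => (map_ne_zero (d.ρ z)).mpr hf
  -- the product over the other points is an `n`-th power
  have hrest : ∏ z ∈ Finset.univ.erase z₀, d.ρ z f ^ μ z =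
      (∏ z ∈ Finset.univ.erase z₀, d.ρ z f ^ (μ z / n)) ^ n := by
    rw [← Finset.prod_pow]
    refine Finset.prod_congr rfl fun z hz => ?_
    rw [← pow_mul, Nat.div_mul_cancel (hdvd z (Finset.ne_of_mem_erase hz))]
  have hrest0 : (∏ z ∈ Finset.univ.erase z₀, d.ρ z f ^ (μ z / n)) ≠ 0 :=
    Finset.prod_ne_zero_iff.mpr fun z _ => pow_ne_zero _ (hρ0 z)
  have hsplit : ∏ z, d.ρ z f ^ μ z =
      d.ρ z₀ f * (∏ z ∈ Finset.univ.erase z₀, d.ρ z f ^ (μ z / n)) ^ n := by
    rw [← Finset.mul_prod_erase Finset.univ _ (Finset.mem_univ z₀), hz₀, pow_one, hrest]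
  -- the product of the values is an `n`-th power
  have hval : ∏ Q ∈ (R.divOf K f).support, phi d Q ^ (R.divOf K f Q) =
      (∏ Q ∈ (R.divOf K f).support, phi d Q ^ (D' Q)) ^ n := by
    rw [← Finset.prod_pow]
    refine Finset.prod_congr rfl fun Q _ => ?_
    rw [hD, Finsupp.smul_apply, smul_eq_mul, mul_comm, zpow_mul, zpow_natCast]
  refine ⟨algebraMap K M lam * (∏ Q ∈ (R.divOf K f).support, phi d Q ^ (D' Q)) *
    (∏ z ∈ Finset.univ.erase z₀, d.ρ z f ^ (μ z / n))⁻¹, ?_⟩
  rw [mul_pow, mul_pow, ← map_pow, hlam, ← hval, ← hκ, hsplit, inv_pow, mul_assoc,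
    mul_inv_cancel₀ (pow_ne_zero n hrest0), mul_one]

/-- The data attached to a class killed by `n`: a representative off `B`, a function with
divisor `n` times it, and an `n`-th root of its image under `ρ z₀`. -/
theorem exists_rep (htr : Algebra.trdeg K F = 1) (htrM : Algebra.trdeg K M = 1)
    {ι : Type*} [Fintype ι] {μ : ι → ℕ} {m : ℕ} {B : Divisor K F} {δ : Derivation K F F}
    (d : L.Data htr M ι μ m B δ) (hμ : ∀ z, 0 < μ z) {n : ℕ} (hn : 0 < n) (z₀ : ι)
    (hz₀ : μ z₀ = 1) (hdvd : ∀ z, z ≠ z₀ → n ∣ μ z) (t : Pic0 K F) (ht : n • t = 0) :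
    ∃ (D : Divisor.degZero (K := K) (F := F)) (f : F) (h : M), Pic0.mk D = t ∧ f ≠ 0 ∧
      R.divOf K f = (n : ℤ) • (D : Divisor K F) ∧ h ^ n = d.ρ z₀ f := by
  obtain ⟨D₀, rfl⟩ := Pic0.mk_surjective t
  obtain ⟨w, hw0, hw⟩ := R.exists_move htr (D₀ : Divisor K F) B.support
  have hwdeg : R.divOf K w ∈ Divisor.degZero (K := K) (F := F) := by
    rw [Divisor.mem_degZero]
    exact R.degree_divOf htr w
  set D : Divisor.degZero (K := K) (F := F) := D₀ + ⟨R.divOf K w, hwdeg⟩ with hDdef
  have hDcoe : (D : Divisor K F) = (D₀ : Divisor K F) + R.divOf K w := rfl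
  have hmk : Pic0.mk D = Pic0.mk D₀ := by
    rw [hDdef, Pic0.mk_add]
    have h0 : Pic0.mk (⟨R.divOf K w, hwdeg⟩ : Divisor.degZero (K := K) (F := F)) = 0 := by
      refine (QuotientAddGroup.eq_zero_iff _).mpr ?_
      rw [AddSubgroup.mem_addSubgroupOf]
      exact R.divOf_mem_principal htr hw0
    rw [h0, add_zero]
  have hnD : (n • D : Divisor.degZero (K := K) (F := F)) ∈
      (Divisor.principal (K := K) (F := F)).addSubgroupOf (Divisor.degZero (K := K) (F := F)) := by
    refine (QuotientAddGroup.eq_zero_iff _).mp ?_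
    have : ((n • D : Divisor.degZero (K := K) (F := F)) : Pic0 K F) = n • Pic0.mk D := rfl
    rw [this, hmk]
    exact ht
  rw [AddSubgroup.mem_addSubgroupOf] at hnD
  obtain ⟨f, hf0, hfD⟩ := hnD
  have hdiv : R.divOf K f = (n : ℤ) • (D : Divisor K F) := by
    ext v
    rw [R.divOf_apply htr, ← hfD v]
    simp
  have hB : ∀ Q : Place K F, (D : Divisor K F) Q ≠ 0 → B Q = 0 := by
    intro Q hQ
    by_contra hBQ
    exact hQ (by rw [hDcoe]; exact hw Q (Finsupp.mem_support_iff.mpr hBQ))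
  obtain ⟨h, hh⟩ := exists_root htr htrM d hμ hn z₀ hz₀ hdvd hf0 (D : Divisor K F) hdiv hB
  exact ⟨D, f, h, hmk, hf0, hdiv, hh⟩

/-- **The Kummer start** (K1 + K2 + K3): on a profile configuration with a simple point `z₀`
all of whose other multiplicities are divisible by `n`, every finite set of classes of
`Pic0 K F` killed by `n` has at most `[M : ρ z₀ F]` elements. -/
theorem card_le_finrankAlong (htr : Algebra.trdeg K F = 1) (htrM : Algebra.trdeg K M = 1)
    {ι : Type*} [Fintype ι] {μ : ι → ℕ} {m : ℕ} {B : Divisor K F} {δ : Derivation K F F}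
    (d : L.Data htr M ι μ m B δ) (hμ : ∀ z, 0 < μ z) {n : ℕ} (hn : 0 < n) (z₀ : ι)
    (hz₀ : μ z₀ = 1) (hdvd : ∀ z, z ≠ z₀ → n ∣ μ z) (T : Finset (Pic0 K F))
    (hT : ∀ t ∈ T, n • t = 0) : T.card ≤ finrankAlong K (d.ρ z₀) := by
  classical
  letI := algebraAlong (d.ρ z₀)
  haveI := isScalarTower_along (d.ρ z₀)
  haveI : Module.Finite F M := Fermat.Agent.Lib.FFNorm.finite_of_trdeg htr htrM
  haveI : CharZero F := charZero_of_injective_algebraMap (algebraMap K F).injective
  have halg : ∀ x : F, algebraMap F M x = d.ρ z₀ x := fun _ => rfl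
  -- a primitive `n`-th root of unity in `F`
  haveI : NeZero (n : K) := ⟨Nat.cast_ne_zero.mpr hn.ne'⟩
  obtain ⟨ζ₀, hζ₀⟩ := HasEnoughRootsOfUnity.exists_primitiveRoot K n
  have hζ : IsPrimitiveRoot (algebraMap K F ζ₀) n :=
    hζ₀.map_of_injective (algebraMap K F).injective
  -- the data of the classes
  have hex : ∀ t : Pic0 K F, ∃ (D : Divisor.degZero (K := K) (F := F)) (f : F) (h : M),
      t ∈ T → (Pic0.mk D = t ∧ f ≠ 0 ∧ R.divOf K f = (n : ℤ) • (D : Divisor K F) ∧
        h ^ n = d.ρ z₀ f) := by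
    intro t
    by_cases ht : t ∈ T
    · obtain ⟨D, f, h, h1⟩ := exists_rep htr htrM d hμ hn z₀ hz₀ hdvd t (hT t ht)
      exact ⟨D, f, h, fun _ => h1⟩
    · exact ⟨0, 0, 0, fun h => absurd h ht⟩
  choose D f h hspec using hex
  have hcard := KummerIndep.card_finset_le_finrank (L := F) (E := M) hn hζ T h
    (fun t ht h0 => by
      have h1 := (hspec t ht).2.2.2
      rw [h0, zero_pow hn.ne'] at h1
      exact (map_ne_zero (d.ρ z₀)).mpr (hspec t ht).2.1 h1.symm)
    (fun t ht => ⟨f t, by rw [halg, (hspec t ht).2.2.2]⟩)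
    (fun t ht s hs hts => by
      rintro ⟨u, hu⟩
      apply hts
      have hft := (hspec t ht).2.1
      have hfs := (hspec s hs).2.1
      have hs0 : h s ≠ 0 := by
        intro h0
        have h1 := (hspec s hs).2.2.2
        rw [h0, zero_pow hn.ne'] at h1
        exact (map_ne_zero (d.ρ z₀)).mpr hfs h1.symm
      -- `f t = u ^ n * f s`
      have h1 : d.ρ z₀ (u ^ n * f s) = d.ρ z₀ (f t) := by
        rw [map_mul, map_pow, ← halg u, hu, div_pow, (hspec t ht).2.2.2, (hspec s hs).2.2.2,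
          div_mul_cancel₀ _ ((map_ne_zero (d.ρ z₀)).mpr hfs)]
      have h2 : u ^ n * f s = f t := (d.ρ z₀).toRingHom.injective h1
      have hu0 : u ≠ 0 := by
        rintro rfl
        rw [zero_pow hn.ne', zero_mul] at h2
        exact hft h2.symm
      -- divisors
      have h3 : (n : ℤ) • ((D t : Divisor K F) - (D s : Divisor K F) - R.divOf K u) = 0 := by
        have h4 : R.divOf K (u ^ n * f s) = (n : ℤ) • R.divOf K u + R.divOf K (f s) := by
          rw [R.divOf_mul htr (pow_ne_zero n hu0) hfs]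
          congr 1
          ext v
          rw [R.divOf_apply htr, Finsupp.smul_apply, R.divOf_apply htr, ← zpow_natCast,
            Place.ord_zpow, smul_eq_mul]
        rw [h2, (hspec t ht).2.2.1, (hspec s hs).2.2.1] at h4
        rw [smul_sub, smul_sub, h4]
        abel
      have h5 : (D t : Divisor K F) - (D s : Divisor K F) - R.divOf K u = 0 := by
        rcases smul_eq_zero.mp h3 with h | h
        · exact absurd h (Nat.cast_ne_zero.mpr hn.ne')
        · exact h
      rw [← (hspec t ht).1, ← (hspec s hs).1]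
      refine (QuotientAddGroup.eq).mpr ?_
      rw [AddSubgroup.mem_addSubgroupOf]
      have h6 : ((-(D t) + D s : Divisor.degZero (K := K) (F := F)) : Divisor K F) =
          -R.divOf K u := by
        have : (D t : Divisor K F) = (D s : Divisor K F) + R.divOf K u := by
          rw [← sub_eq_zero, ← h5]
          abel
        push_cast
        rw [this]
        abel
      rw [h6]
      exact neg_mem (R.divOf_mem_principal htr hu0))
  exact hcard

/-- **The Kummer start for the type `(1, e2)`**, in the vocabulary of the exit of strand L. -/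
theorem card_le_finrankAlong_sum (htr : Algebra.trdeg K F = 1) (htrM : Algebra.trdeg K M = 1)
    {e2 m n : ℕ} {B : Divisor K F} {δ : Derivation K F F}
    (d : L.Data htr M (Fin 1 ⊕ Fin e2) (Sum.elim (fun _ => 1) (fun _ => n)) m B δ) (hn : 0 < n)
    (T : Finset (Pic0 K F)) (hT : ∀ t ∈ T, n • t = 0) :
    T.card ≤ ∑ i : Fin 1, finrankAlong K (d.ρ (Sum.inl i)) := by
  rw [Fin.sum_univ_one]
  refine card_le_finrankAlong htr htrM d (fun z => ?_) hn (Sum.inl 0) rfl (fun z hz => ?_) T hT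
  · rcases z with i | j
    · exact one_pos
    · exact hn
  · rcases z with i | j
    · exact absurd (congrArg Sum.inl (Subsingleton.elim i 0)) hz
    · exact dvd_rfl

end Fermat.Agent.S27.KummerStart
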